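import Mathlib

/-!
# S43 / T32 / Lift : the algebra behind (L8) "lift"                         (Mathlib only; helper32, backup)

`∑_{i<n} (1 + X)^i = n A + X⁴ B` in `ℤ[X]` for `n` prime to `6`; hence, for an additive endomorphism `dl` of `X` preserving a subgroup
`HH` killed by `c n`:   `c • ∑_{i<n} dl^[i] y = w (w (w (w u)))`, `u ∈ HH`, `w z = dl z - z`.
-/

set_option autoImplicit false

namespace Fermat.Agent.S43.T32

open Polynomial Finset

theorem dvd_choose_of_coprime {n j : ℕ} (hj : 0 < j) (hnj : Nat.Coprime n j) : n ∣ n.choose j := by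
  obtain ⟨j', rfl⟩ : ∃ j', j = j' + 1 := ⟨j - 1, by omega⟩
  rcases n with _ | n'
  · simp
  · have h := Nat.add_one_mul_choose_eq n' j'
    exact hnj.dvd_of_dvd_mul_right ⟨_, h.symm⟩

theorem dvd_choose_of_le_four {n j : ℕ} (hn : Nat.Coprime n 6) (hj : 0 < j) (hj4 : j ≤ 4) :
    n ∣ n.choose j := by
  have h2 : Nat.Coprime n 2 := Nat.Coprime.coprime_dvd_right (by norm_num) hn
  have h3 : Nat.Coprime n 3 := Nat.Coprime.coprime_dvd_right (by norm_num) hn
  have h4 : Nat.Coprime n 4 := by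
    have : Nat.Coprime n (2 ^ 2) := Nat.Coprime.pow_right 2 h2
    simpa using this
  apply dvd_choose_of_coprime hj
  interval_cases j
  · exact Nat.coprime_one_right n
  · exact h2
  · exact h3
  · exact h4

/-- `∑_{i<n} (1+X)^i = ∑_{k<n} C(n,k+1) X^k`. -/
theorem geom_eq (n : ℕ) :
    (∑ i ∈ range n, ((1 : ℤ[X]) + X) ^ i) = ∑ k ∈ range n, ((n.choose (k + 1) : ℕ) : ℤ[X]) * X ^ k := by
  have hX : (X : ℤ[X]) ≠ 0 := X_ne_zero
  apply mul_right_cancel₀ hX
  have h1 : (∑ i ∈ range n, ((1 : ℤ[X]) + X) ^ i) * X = (1 + X) ^ n - 1 := by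
    have := geom_sum_mul ((1 : ℤ[X]) + X) n
    rwa [add_sub_cancel_left] at this
  rw [h1, add_comm (1 : ℤ[X]) X, add_pow, Finset.sum_range_succ', Finset.sum_mul]
  simp only [one_pow, mul_one, pow_zero, Nat.choose_zero_right, Nat.cast_one, add_sub_cancel_right]
  refine Finset.sum_congr rfl fun k _ => ?_
  rw [pow_succ]
  ring

/-- **the norm polynomial modulo `n` and `X⁴`.** -/
theorem exists_norm_eq {n : ℕ} (hn : Nat.Coprime n 6) :
    ∃ A B : ℤ[X], (∑ i ∈ range n, ((1 : ℤ[X]) + X) ^ i) = (n : ℤ[X]) * A + X ^ 4 * B := by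
  classical
  rw [geom_eq]
  refine ⟨∑ k ∈ (range n).filter (fun k => k < 4), ((n.choose (k + 1) / n : ℕ) : ℤ[X]) * X ^ k,
    ∑ k ∈ (range n).filter (fun k => ¬ k < 4), ((n.choose (k + 1) : ℕ) : ℤ[X]) * X ^ (k - 4), ?_⟩
  rw [← Finset.sum_filter_add_sum_filter_not (range n) (fun k => k < 4), Finset.mul_sum,
    Finset.mul_sum]
  congr 1
  · refine Finset.sum_congr rfl fun k hk => ?_
    have hk4 : k < 4 := (Finset.mem_filter.mp hk).2
    have hd : n ∣ n.choose (k + 1) := dvd_choose_of_le_four hn (Nat.succ_pos k) (by omega)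
    rw [← mul_assoc, ← Nat.cast_mul, Nat.mul_div_cancel' hd]
  · refine Finset.sum_congr rfl fun k hk => ?_
    have hk4 : ¬ k < 4 := (Finset.mem_filter.mp hk).2
    have : X ^ k = (X : ℤ[X]) ^ 4 * X ^ (k - 4) := by rw [← pow_add]; congr 1; omega
    rw [this]
    ring

section End

variable {X : Type*} [AddCommGroup X]

theorem aeval_mem (HH : AddSubgroup X) (T : Module.End ℤ X) (hT : ∀ y ∈ HH, T y ∈ HH) (Q : ℤ[X])
    {y : X} (hy : y ∈ HH) : (aeval T Q) y ∈ HH := by
  have hpow : ∀ (k : ℕ) (z : X), z ∈ HH → (T ^ k) z ∈ HH := by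
    intro k
    induction k with
    | zero => intro z hz; simpa using hz
    | succ k ih =>
      intro z hz
      rw [pow_succ, Module.End.mul_apply]
      exact ih _ (hT z hz)
  induction Q using Polynomial.induction_on' with
  | add P Q hP hQ =>
    rw [map_add, LinearMap.add_apply]
    exact HH.add_mem hP hQ
  | monomial k a =>
    rw [aeval_monomial, Module.End.mul_apply, Module.algebraMap_end_apply]
    exact HH.zsmul_mem (hpow k y hy) a

/-- **(L8), abstract.** -/
theorem lift_core (HH : AddSubgroup X) (dl : X →+ X) (hdl : ∀ y ∈ HH, dl y ∈ HH) {n c : ℕ}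
    (hn : Nat.Coprime n 6) (hkill : ∀ y ∈ HH, (c * n) • y = 0) {y : X} (hy : y ∈ HH) :
    ∃ u ∈ HH, ∃ u₁ u₂ u₃ u₄ : X, u₁ = dl u - u ∧ u₂ = dl u₁ - u₁ ∧ u₃ = dl u₂ - u₂ ∧
      u₄ = dl u₃ - u₃ ∧ u₄ = c • ∑ i ∈ range n, dl^[i] y := by
  obtain ⟨A, B, hAB⟩ := exists_norm_eq hn
  set D : Module.End ℤ X := dl.toIntLinearMap with hD
  set W : Module.End ℤ X := D - 1 with hW
  have hWm : ∀ z ∈ HH, W z ∈ HH := fun z hz => HH.sub_mem (hdl z hz) hz
  have hWa : ∀ z, W z = dl z - z := fun z => rfl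
  have h1 := congrArg (aeval W) hAB
  simp only [map_sum, map_pow, map_add, map_one, aeval_X, map_mul, map_natCast] at h1
  have hWD : (1 : Module.End ℤ X) + W = D := by rw [hW]; abel
  rw [hWD] at h1
  have h2 := LinearMap.congr_fun h1 y
  rw [LinearMap.sum_apply, LinearMap.add_apply, Module.End.mul_apply, Module.End.mul_apply] at h2
  have h3 : ∀ i, (D ^ i) y = dl^[i] y := fun i => by
    rw [Module.End.pow_apply]; rfl
  simp only [h3] at h2
  refine ⟨c • (aeval W B) y, HH.nsmul_mem (aeval_mem HH W hWm B hy) c, _, _, _, _, rfl, rfl, rfl, rfl,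
    ?_⟩
  rw [h2, smul_add]
  have h4 : c • ((n : Module.End ℤ X) ((aeval W A) y)) = 0 := by
    have : (n : Module.End ℤ X) ((aeval W A) y) = n • (aeval W A) y := by
      rw [← nsmul_one, LinearMap.smul_apply, Module.End.one_apply]
    rw [this, smul_smul]
    exact hkill _ (aeval_mem HH W hWm A hy)
  rw [h4, zero_add]
  simp only [← hWa]
  rw [← map_nsmul (W ^ 4)]
  simp only [pow_succ, pow_zero, one_mul, Module.End.mul_apply]

end End

end Fermat.Agent.S43.T32
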